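import Mathlib
import Fermat.Agent.S24.JFun.Basic
import Fermat.Agent.S28.H628.Hermite

/-!
# S28 helper (helper529): the family of `p + 1` points `p τ`, `(τ + b) / p` and its permutation
by `S` and `T` modulo `SL(2, ℤ)`.
-/

set_option autoImplicit false

namespace Fermat.Agent.S28.H529

open UpperHalfPlane
open scoped MatrixGroups

noncomputable section

/-- The point `n τ` (`n > 0`). -/
def mulPt (n : ℕ) [NeZero n] (τ : ℍ) : ℍ :=
  ⟨(n : ℂ) * τ, by
    have hn : (0 : ℝ) < n := by exact_mod_cast Nat.pos_of_ne_zero (NeZero.ne n)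
    have : ((n : ℂ) * (τ : ℂ)).im = n * τ.im := by simp
    rw [this]
    exact mul_pos hn τ.im_pos⟩

/-- The point `(τ + b) / n` (`n > 0`). -/
def divPt (n : ℕ) [NeZero n] (b : ℤ) (τ : ℍ) : ℍ :=
  ⟨((τ : ℂ) + b) / n, by
    have hn : (0 : ℝ) < n := by exact_mod_cast Nat.pos_of_ne_zero (NeZero.ne n)
    have : (((τ : ℂ) + b) / n).im = τ.im / n := by
      rw [Complex.div_natCast_im]
      simp
    rw [this]
    exact div_pos τ.im_pos hn⟩

variable (n : ℕ) [NeZero n]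

@[simp] theorem coe_mulPt (τ : ℍ) : ((mulPt n τ : ℍ) : ℂ) = (n : ℂ) * τ := rfl

@[simp] theorem coe_divPt (b : ℤ) (τ : ℍ) : ((divPt n b τ : ℍ) : ℂ) = ((τ : ℂ) + b) / n := rfl

theorem natCast_ne_zero_C : (n : ℂ) ≠ 0 := by exact_mod_cast NeZero.ne n

theorem coe_S_smul (τ : ℍ) : ((ModularGroup.S • τ : ℍ) : ℂ) = -1 / τ := by
  rw [H628.SL2_coe_smul]
  simp [ModularGroup.S]

theorem coe_T_zpow_smul (e : ℤ) (τ : ℍ) : ((ModularGroup.T ^ e • τ : ℍ) : ℂ) = τ + e := by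
  rw [UpperHalfPlane.modular_T_zpow_smul, UpperHalfPlane.coe_vadd]
  push_cast
  ring

theorem coe_T_smul (τ : ℍ) : ((ModularGroup.T • τ : ℍ) : ℂ) = τ + 1 := by
  have := coe_T_zpow_smul 1 τ
  simpa using this

/-- `(τ + b)/n` and `(τ + b')/n` are `SL(2,ℤ)`-equivalent if `b ≡ b' mod n`. -/
theorem divPt_congr {b b' : ℤ} (h : b ≡ b' [ZMOD n]) (τ : ℍ) :
    ∃ γ : SL(2, ℤ), γ • divPt n b' τ = divPt n b τ := by
  obtain ⟨e, he⟩ := (Int.modEq_iff_dvd.mp h.symm)
  refine ⟨ModularGroup.T ^ e, ?_⟩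
  apply UpperHalfPlane.ext
  rw [coe_T_zpow_smul, coe_divPt, coe_divPt]
  have hn := natCast_ne_zero_C n
  have he' : (b : ℂ) - b' = n * e := by exact_mod_cast he
  field_simp
  linear_combination -he'

/-- `n (τ + 1) = T^n (n τ)`. -/
theorem mulPt_T (τ : ℍ) : mulPt n (ModularGroup.T • τ) = ModularGroup.T ^ (n : ℤ) • mulPt n τ := by
  apply UpperHalfPlane.ext
  rw [coe_T_zpow_smul, coe_mulPt, coe_mulPt, coe_T_smul]
  push_cast
  ring

/-- `((τ + 1) + b)/n = (τ + (b + 1))/n`. -/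
theorem divPt_T (b : ℤ) (τ : ℍ) : divPt n b (ModularGroup.T • τ) = divPt n (b + 1) τ := by
  apply UpperHalfPlane.ext
  rw [coe_divPt, coe_divPt, coe_T_smul]
  push_cast
  ring

/-- `n · (-1/τ) = S • (τ / n)`. -/
theorem mulPt_S (τ : ℍ) : mulPt n (ModularGroup.S • τ) = ModularGroup.S • divPt n 0 τ := by
  apply UpperHalfPlane.ext
  rw [coe_S_smul, coe_mulPt, coe_divPt, coe_S_smul]
  have hn := natCast_ne_zero_C n
  have hτ : (τ : ℂ) ≠ 0 := τ.ne_zero
  simp only [Int.cast_zero, add_zero]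
  field_simp

/-- `(-1/τ)/n = S • (n τ)`. -/
theorem divPt_zero_S (τ : ℍ) : divPt n 0 (ModularGroup.S • τ) = ModularGroup.S • mulPt n τ := by
  apply UpperHalfPlane.ext
  rw [coe_S_smul, coe_mulPt, coe_divPt, coe_S_smul]
  have hn := natCast_ne_zero_C n
  have hτ : (τ : ℂ) ≠ 0 := τ.ne_zero
  simp only [Int.cast_zero, add_zero]
  field_simp

/-- The matrix `[b, -m; n, -b']` of determinant `1` when `b b' + 1 = n m`. -/
def sMat (b b' m : ℤ) (h : b * b' + 1 = n * m) : SL(2, ℤ) :=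
  ⟨!![b, -m; (n : ℤ), -b'], by
    rw [Matrix.det_fin_two_of]
    linarith⟩

/-- `(-1/τ + b)/n = γ • ((τ + b')/n)` with `γ = [b, -m; n, -b']`, if `b b' + 1 = n m`. -/
theorem divPt_S (b b' m : ℤ) (h : b * b' + 1 = n * m) (τ : ℍ) :
    divPt n b (ModularGroup.S • τ) = sMat n b b' m h • divPt n b' τ := by
  apply UpperHalfPlane.ext
  rw [H628.SL2_coe_smul, coe_divPt, coe_divPt, coe_S_smul]
  have hn := natCast_ne_zero_C n
  have hτ : (τ : ℂ) ≠ 0 := τ.ne_zero
  have h' : (b : ℂ) * b' + 1 = n * m := by exact_mod_cast h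
  simp only [sMat, Matrix.SpecialLinearGroup.coe_mk, Matrix.of_apply, Matrix.cons_val',
    Matrix.cons_val_zero, Matrix.cons_val_one, Matrix.empty_val', Matrix.cons_val_fin_one]
  push_cast
  have hden : (n : ℂ) * (((τ : ℂ) + b') / n) + -(b' : ℂ) = τ := by
    field_simp
    ring
  have hnum : (b : ℂ) * (((τ : ℂ) + b') / n) + -(m : ℂ) = ((b : ℂ) * τ - 1) / n := by
    field_simp
    linear_combination h'
  rw [hden, hnum]
  field_simp
  ring

end

end Fermat.Agent.S28.H529
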