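import Mathlib

/-!
# S28 helper (helper529): integrality of elementary symmetric functions via Newton's identities

Pure algebra.  For a finite family `φ i` of Laurent series over `ℂ` whose coefficients are
algebraic integers and whose power sums have rational coefficients, all elementary symmetric
functions of the family have coefficients in `ℤ`.
-/

set_option autoImplicit false

namespace Fermat.Agent.S28.H529

open MvPolynomial

noncomputable section

/-- Laurent series whose coefficients lie in a subring `C₀`. -/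
def coeffsIn {A : Type*} [CommRing A] (C₀ : Subring A) : Subring (LaurentSeries A) where
  carrier := {φ | ∀ n, φ.coeff n ∈ C₀}
  mul_mem' := by
    intro x y hx hy n
    rw [HahnSeries.coeff_mul]
    exact Subring.sum_mem _ fun ij _ => C₀.mul_mem (hx _) (hy _)
  one_mem' := by
    intro n
    rw [HahnSeries.coeff_one]
    split_ifs
    · exact C₀.one_mem
    · exact C₀.zero_mem
  add_mem' := by
    intro x y hx hy n
    rw [HahnSeries.coeff_add]
    exact C₀.add_mem (hx n) (hy n)
  zero_mem' := by
    intro n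
    rw [HahnSeries.coeff_zero]
    exact C₀.zero_mem
  neg_mem' := by
    intro x hx n
    rw [HahnSeries.coeff_neg]
    exact C₀.neg_mem (hx n)

theorem mem_coeffsIn {A : Type*} [CommRing A] {C₀ : Subring A} {φ : LaurentSeries A} :
    φ ∈ coeffsIn C₀ ↔ ∀ n, φ.coeff n ∈ C₀ := Iff.rfl

/-- Evaluation of integer multivariate polynomials at a family in a commutative ring
(avoids any choice of `ℤ`-algebra structure). -/
def evZ {R : Type*} [CommRing R] {ι : Type*} (φ : ι → R) : MvPolynomial ι ℤ →+* R :=
  MvPolynomial.eval₂Hom (Int.castRingHom R) φ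

theorem evZ_X {R : Type*} [CommRing R] {ι : Type*} (φ : ι → R) (i : ι) :
    evZ φ (X i) = φ i := by
  simp [evZ]

theorem evZ_psum {R : Type*} [CommRing R] {ι : Type*} [Fintype ι] (φ : ι → R) (m : ℕ) :
    evZ φ (psum ι ℤ m) = ∑ i, φ i ^ m := by
  simp [psum, evZ_X]

theorem evZ_esymm {R : Type*} [CommRing R] {ι : Type*} [Fintype ι] (φ : ι → R) (k : ℕ) :
    evZ φ (esymm ι ℤ k) = (Finset.univ.val.map φ).esymm k := by
  simp_rw [esymm, map_sum, map_prod, evZ_X, Finset.esymm_map_val]

/-- Newton's identities: if the power sums of a family lie in a subring `B` which is closed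
under division by positive integers, so do the elementary symmetric functions. -/
theorem evZ_esymm_mem_of_psum_mem {R : Type*} [CommRing R] {ι : Type*} [Fintype ι]
    (B : Subring R) (hdiv : ∀ k : ℕ, 0 < k → ∀ x : R, (k : R) * x ∈ B → x ∈ B)
    (φ : ι → R) (hp : ∀ m : ℕ, 0 < m → evZ φ (psum ι ℤ m) ∈ B) :
    ∀ k : ℕ, evZ φ (esymm ι ℤ k) ∈ B := by
  intro k
  induction k using Nat.strong_induction_on with
  | _ k ih =>
    rcases Nat.eq_zero_or_pos k with rfl | hk
    · simp only [esymm_zero, map_one]
      exact B.one_mem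
    · apply hdiv k hk
      have h := congrArg (evZ φ) (mul_esymm_eq_sum ι ℤ k)
      rw [map_mul, map_natCast] at h
      rw [h, map_mul, map_pow, map_neg, map_one, map_sum]
      refine B.mul_mem (B.pow_mem (B.neg_mem B.one_mem) _) (B.sum_mem fun a ha => ?_)
      obtain ⟨ha1, ha2⟩ := Finset.mem_filter.mp ha
      have ha3 : a.1 + a.2 = k := Finset.HasAntidiagonal.mem_antidiagonal.mp ha1
      rw [map_mul, map_mul, map_pow, map_neg, map_one]
      refine B.mul_mem (B.mul_mem (B.pow_mem (B.neg_mem B.one_mem) _) (ih _ ha2)) (hp _ ?_)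
      omega

/-- The subring of rational numbers inside `ℂ`. -/
def ratSubring : Subring ℂ := (algebraMap ℚ ℂ).range

/-- The subring of rational integers inside `ℂ`. -/
def intSubring : Subring ℂ := (Int.castRingHom ℂ).range

/-- The subring of algebraic integers inside `ℂ`. -/
def algIntSubring : Subring ℂ := (integralClosure ℤ ℂ).toSubring

theorem mem_algIntSubring {x : ℂ} : x ∈ algIntSubring ↔ IsIntegral ℤ x := Iff.rfl

theorem mem_intSubring {x : ℂ} : x ∈ intSubring ↔ ∃ n : ℤ, (n : ℂ) = x := Iff.rfl

theorem intCast_mem_intSubring (n : ℤ) : (n : ℂ) ∈ intSubring := ⟨n, rfl⟩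

theorem intSubring_le_algIntSubring : intSubring ≤ algIntSubring := by
  rintro x ⟨n, rfl⟩
  exact isIntegral_algebraMap (R := ℤ) (A := ℂ) (x := n)

theorem intSubring_le_ratSubring : intSubring ≤ ratSubring := by
  rintro x ⟨n, rfl⟩
  exact ⟨(n : ℚ), by simp⟩

/-- A rational algebraic integer is an integer. -/
theorem mem_intSubring_of_rat_of_integral {x : ℂ} (hq : x ∈ ratSubring)
    (hi : x ∈ algIntSubring) : x ∈ intSubring := by
  obtain ⟨r, rfl⟩ := hq
  have hr : IsIntegral ℤ r :=
    (isIntegral_algebraMap_iff (algebraMap ℚ ℂ).injective).mp (mem_algIntSubring.mp hi)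
  obtain ⟨n, hn⟩ := IsIntegrallyClosed.isIntegral_iff.mp hr
  refine ⟨n, ?_⟩
  rw [← hn]
  simp

theorem natCast_mul_coeff {A : Type*} [CommRing A] (k : ℕ) (x : LaurentSeries A) (n : ℤ) :
    ((k : LaurentSeries A) * x).coeff n = (k : A) * x.coeff n := by
  have h : (k : LaurentSeries A) = HahnSeries.C (k : A) := by
    simp
  rw [h, HahnSeries.C_mul_eq_smul, HahnSeries.coeff_smul, smul_eq_mul]

theorem coeffsIn_ratSubring_div (k : ℕ) (hk : 0 < k) (x : LaurentSeries ℂ)
    (h : (k : LaurentSeries ℂ) * x ∈ coeffsIn ratSubring) : x ∈ coeffsIn ratSubring := by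
  intro n
  have h1 := h n
  rw [natCast_mul_coeff] at h1
  obtain ⟨r, hr⟩ := h1
  refine ⟨r / k, ?_⟩
  have hk' : (k : ℂ) ≠ 0 := by exact_mod_cast hk.ne'
  rw [map_div₀, hr]
  simp only [map_natCast]
  field_simp

/-- **Integrality of symmetric functions.**  If the coefficients of all `φ i` are algebraic
integers and all power sums `∑ i, φ i ^ m` (`m ≥ 1`) have rational coefficients, then the
elementary symmetric functions of the `φ i` have integer coefficients. -/
theorem esymm_mem_coeffsIn_int {ι : Type*} [Fintype ι] (φ : ι → LaurentSeries ℂ)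
    (hint : ∀ i, φ i ∈ coeffsIn algIntSubring)
    (hps : ∀ m : ℕ, 0 < m → (∑ i, φ i ^ m) ∈ coeffsIn ratSubring) (k : ℕ) :
    (Finset.univ.val.map φ).esymm k ∈ coeffsIn intSubring := by
  have h1 : evZ φ (esymm ι ℤ k) ∈ coeffsIn ratSubring := by
    refine evZ_esymm_mem_of_psum_mem _ coeffsIn_ratSubring_div φ (fun m hm => ?_) k
    rw [evZ_psum]
    exact hps m hm
  have h2 : (Finset.univ.val.map φ).esymm k ∈ coeffsIn algIntSubring := by
    rw [Multiset.esymm]
    refine Subring.multiset_sum_mem _ _ fun x hx => ?_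
    rw [Multiset.mem_map] at hx
    obtain ⟨s, hs, rfl⟩ := hx
    refine Subring.multiset_prod_mem _ _ fun y hy => ?_
    have hy' : y ∈ Finset.univ.val.map φ :=
      Multiset.mem_of_le (Multiset.mem_powersetCard.mp hs).1 hy
    rw [Multiset.mem_map] at hy'
    obtain ⟨i, -, rfl⟩ := hy'
    exact hint i
  rw [evZ_esymm] at h1
  intro n
  exact mem_intSubring_of_rat_of_integral (h1 n) (h2 n)

end

end Fermat.Agent.S28.H529
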