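import Mathlib
import Fermat.Prelude.Def_ModularCurve_JqCoeff
import Fermat.Agent.S28.H205.Conv
import Fermat.Agent.S28.H685.JIntegral
import Fermat.Agent.S28.H529.Family
import Fermat.Agent.S28.H529.NewtonInt

/-!
# S28 helper (helper529): the characteristic polynomial of a family of functions permuted by
`SL(2, ℤ)` has coefficients in `ℤ[j]`

General statement: a finite family `F i : ℍ → ℂ` which is permuted by `S` and `T`, with
expansions `Φ i` in `t = exp (2πiτ/N)` whose coefficients are algebraic integers and whose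
power sums have rational coefficients, satisfies `∏ (X - Φ i) = Q(j(t^N), X)` with
`Q ∈ ℤ[Y][X]` monic.
-/

set_option autoImplicit false

namespace Fermat.Agent.S28.H529

open UpperHalfPlane Polynomial ModularCurve
open scoped MatrixGroups

noncomputable section

theorem convTo_one_iff (φ : LaurentSeries ℂ) (f : ℍ → ℂ) :
    H205.ConvTo 1 φ f ↔ H685.HasQLaurent 1 f φ := by
  unfold H205.ConvTo H685.HasQLaurent H205.tPar
  simp only [Nat.cast_one]

theorem convTo_jFun : H205.ConvTo 1 (jqModC ℂ) H685.jFun :=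
  (convTo_one_iff _ _).mpr H685.hasQLaurent_jFun

/-- Evaluation `ℤ[Y] → ℂ((t))`, `Y ↦ x`. -/
def evY (x : LaurentSeries ℂ) : Polynomial ℤ →+* LaurentSeries ℂ :=
  Polynomial.eval₂RingHom (Int.castRingHom (LaurentSeries ℂ)) x

theorem evY_apply (x : LaurentSeries ℂ) (P : Polynomial ℤ) :
    evY x P = P.eval₂ (Int.castRingHom (LaurentSeries ℂ)) x := rfl

/-- A complex polynomial with coefficients in `ℤ` comes from `ℤ[X]`. -/
theorem exists_int_poly {P : Polynomial ℂ} (hP : ∀ i, P.coeff i ∈ intSubring) :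
    ∃ Pz : Polynomial ℤ, Pz.map (Int.castRingHom ℂ) = P := by
  have : P ∈ Polynomial.lifts (Int.castRingHom ℂ) := by
    rw [Polynomial.lifts_iff_coeff_lifts]
    intro n
    obtain ⟨m, hm⟩ := hP n
    exact ⟨m, hm⟩
  exact (Polynomial.mem_lifts _).mp this

theorem aeval_map_int (x : LaurentSeries ℂ) (Pz : Polynomial ℤ) :
    Polynomial.aeval x (Pz.map (Int.castRingHom ℂ)) = evY x Pz := by
  rw [Polynomial.aeval_def, Polynomial.eval₂_map, evY_apply]
  congr 1
  exact RingHom.ext_int _ _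

theorem qExpand_evY (N : ℕ) [NeZero N] (x : LaurentSeries ℂ) (Pz : Polynomial ℤ) :
    qExpand ℂ N (evY x Pz) = evY (qExpand ℂ N x) Pz := by
  rw [evY_apply, Polynomial.hom_eval₂, evY_apply]
  congr 1
  exact RingHom.ext_int _ _

section General

variable {ι : Type*} [Fintype ι]

/-- The `k`-th elementary symmetric function of a family of functions. -/
def esymmFun (F : ι → ℍ → ℂ) (k : ℕ) : ℍ → ℂ :=
  ∑ t ∈ Finset.powersetCard k Finset.univ, ∏ i ∈ t, F i

theorem esymmFun_apply (F : ι → ℍ → ℂ) (k : ℕ) (τ : ℍ) :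
    esymmFun F k τ = (Finset.univ.val.map fun i => F i τ).esymm k := by
  rw [Finset.esymm_map_val, esymmFun, Finset.sum_apply]
  refine Finset.sum_congr rfl fun t _ => ?_
  rw [Finset.prod_apply]

theorem convTo_esymm (N : ℕ) (F : ι → ℍ → ℂ) (Φ : ι → LaurentSeries ℂ)
    (hexp : ∀ i, H205.ConvTo N (Φ i) (F i)) (k : ℕ) :
    H205.ConvTo N ((Finset.univ.val.map Φ).esymm k) (esymmFun F k) := by
  rw [Finset.esymm_map_val]
  exact H205.ConvTo.sum _ fun t _ => H205.ConvTo.prod _ fun i _ => hexp i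

theorem esymmFun_perm (F : ι → ℍ → ℂ) (π : ι ≃ ι) (g : ℍ → ℍ)
    (h : ∀ i τ, F i (g τ) = F (π i) τ) (k : ℕ) (τ : ℍ) :
    esymmFun F k (g τ) = esymmFun F k τ := by
  rw [esymmFun_apply, esymmFun_apply]
  congr 1
  have h1 : (Finset.univ.val.map fun i => F i (g τ))
      = (Finset.univ.val.map π).map (fun i => F i τ) := by
    rw [Multiset.map_map]
    refine Multiset.map_congr rfl fun i _ => ?_
    exact h i τ
  rw [h1, Multiset.map_univ_val_equiv]

/-- **Symmetric-function theorem.** -/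
theorem exists_symmPoly (N : ℕ) [NeZero N] (F : ι → ℍ → ℂ) (Φ : ι → LaurentSeries ℂ)
    (πS πT : ι ≃ ι)
    (hS : ∀ i τ, F i (ModularGroup.S • τ) = F (πS i) τ)
    (hT : ∀ i τ, F i (ModularGroup.T • τ) = F (πT i) τ)
    (hexp : ∀ i, H205.ConvTo N (Φ i) (F i))
    (hint : ∀ i, Φ i ∈ coeffsIn algIntSubring)
    (hps : ∀ m : ℕ, 0 < m → (∑ i, Φ i ^ m) ∈ coeffsIn ratSubring) :
    ∃ Q : Polynomial (Polynomial ℤ), Q.Monic ∧ Q.natDegree = Fintype.card ι ∧
      Q.map (evY (qExpand ℂ N (jqModC ℂ))) = ∏ i, (X - C (Φ i)) := by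
  classical
  set n := Fintype.card ι with hn
  set jN := qExpand ℂ N (jqModC ℂ) with hjN
  -- the coefficients
  have hcoef : ∀ k : ℕ, ∃ Pz : Polynomial ℤ, evY jN Pz = (Finset.univ.val.map Φ).esymm k := by
    intro k
    have h1 := convTo_esymm N F Φ hexp k
    have hTinv : ∀ τ σ : ℍ, (σ : ℂ) = τ + 1 → esymmFun F k σ = esymmFun F k τ := by
      intro τ σ hσ
      have : σ = ModularGroup.T • τ := by
        apply UpperHalfPlane.ext
        rw [hσ, coe_T_smul]
      rw [this]
      exact esymmFun_perm F πT (fun τ => ModularGroup.T • τ) hT k τ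
    obtain ⟨ψ, hψ1, hψ2⟩ := h1.descend hTinv
    have hint2 := esymm_mem_coeffsIn_int Φ hint hps k
    have hψint : ∀ m : ℤ, ψ.coeff m ∈ intSubring := by
      intro m
      have := hint2 ((N : ℤ) * m)
      rwa [hψ1, qExpand_coeff_mul] at this
    obtain ⟨P, hP1, hP2, -⟩ := H685.exists_polynomial_of_S_invariant_of_mem intSubring
      (esymmFun F k) ψ hψint ((convTo_one_iff _ _).mp hψ2)
      (fun τ => esymmFun_perm F πS (fun τ => ModularGroup.S • τ) hS k τ)
    obtain ⟨Pz, hPz⟩ := exists_int_poly hP1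
    refine ⟨Pz, ?_⟩
    rw [hψ1, hP2, ← hPz, aeval_map_int, hjN, qExpand_evY]
  choose Pz hPz using hcoef
  -- the polynomial
  have hdeg : (∑ j ∈ Finset.range n,
      (-1 : Polynomial (Polynomial ℤ)) ^ (j + 1) * (C (Pz (j + 1)) * X ^ (n - (j + 1)))).degree
      < (n : WithBot ℕ) := by
    refine lt_of_le_of_lt (Polynomial.degree_sum_le _ _) ?_
    rw [Finset.sup_lt_iff (by exact WithBot.bot_lt_coe n)]
    intro j hj
    rw [Finset.mem_range] at hj
    refine lt_of_le_of_lt (Polynomial.degree_mul_le _ _) ?_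
    have h1 : ((-1 : Polynomial (Polynomial ℤ)) ^ (j + 1)).degree ≤ 0 := by
      have : ((-1 : Polynomial (Polynomial ℤ)) ^ (j + 1)) = C ((-1) ^ (j + 1)) := by
        simp
      rw [this]
      exact Polynomial.degree_C_le
    have h2 : (C (Pz (j + 1)) * X ^ (n - (j + 1)) : Polynomial (Polynomial ℤ)).degree
        ≤ ((n - (j + 1) : ℕ) : WithBot ℕ) := by
      refine le_trans (Polynomial.degree_mul_le _ _) ?_
      have h3 := Polynomial.degree_C_le (a := Pz (j + 1))
      have h4 := Polynomial.degree_X_pow_le (R := Polynomial ℤ) (n - (j + 1))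
      calc (C (Pz (j + 1))).degree + (X ^ (n - (j + 1)) : Polynomial (Polynomial ℤ)).degree
          ≤ 0 + ((n - (j + 1) : ℕ) : WithBot ℕ) := add_le_add h3 h4
        _ = _ := zero_add _
    calc ((-1 : Polynomial (Polynomial ℤ)) ^ (j + 1)).degree
          + (C (Pz (j + 1)) * X ^ (n - (j + 1)) : Polynomial (Polynomial ℤ)).degree
        ≤ 0 + ((n - (j + 1) : ℕ) : WithBot ℕ) := add_le_add h1 h2
      _ = ((n - (j + 1) : ℕ) : WithBot ℕ) := zero_add _
      _ < (n : WithBot ℕ) := by
          exact_mod_cast (by omega : n - (j + 1) < n)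
  refine ⟨X ^ n + ∑ j ∈ Finset.range n, (-1) ^ (j + 1) * (C (Pz (j + 1)) * X ^ (n - (j + 1))),
    Polynomial.monic_X_pow_add hdeg, ?_, ?_⟩
  · rw [Polynomial.natDegree_add_eq_left_of_degree_lt, Polynomial.natDegree_X_pow]
    rw [Polynomial.degree_X_pow]
    exact hdeg
  have hprod : (∏ i, (X - C (Φ i)) : Polynomial (LaurentSeries ℂ))
      = ((Finset.univ.val.map Φ).map fun t => X - C t).prod := by
    rw [Multiset.map_map]
    rfl
  rw [hprod, Multiset.prod_X_sub_X_eq_sum_esymm]
  have hcard : Multiset.card (Finset.univ.val.map Φ) = n := by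
    rw [Multiset.card_map]
    rfl
  have h0 : (Finset.univ.val.map Φ).esymm 0 = 1 := by
    simp [Multiset.esymm, Multiset.powersetCard_zero_left]
  rw [hcard, Finset.sum_range_succ']
  simp only [Polynomial.map_add, Polynomial.map_pow, Polynomial.map_X, Polynomial.map_sum,
    Polynomial.map_mul, Polynomial.map_C, Polynomial.map_neg, Polynomial.map_one, hPz,
    h0, pow_zero, one_mul, map_one, tsub_zero]
  rw [add_comm]

end General

end

end Fermat.Agent.S28.H529
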