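import Mathlib
import Fermat.Prelude.Def_ModularCurve_X0ModL
import Fermat.Agent.S28.Defs
import Fermat.Agent.S28.H529.SymmPoly

/-!
# S28 helper (helper529): the modular polynomial of prime level `p`

`nonempty_modPolyData p : Nonempty (ModPolyData p)` — the piece [A-Φ] of the S28 skeleton.
The `p + 1` conjugates are `j(pτ)` and `j((τ + b)/p)`, `b ∈ ℤ/p`; they are permuted by
`S` and `T`, their expansions in `t = exp(2πiτ/p)` have algebraic integer coefficients and
their power sums have rational coefficients.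
-/

set_option autoImplicit false
set_option linter.unusedSectionVars false

namespace Fermat.Agent.S28.H529

open UpperHalfPlane Polynomial ModularCurve
open scoped MatrixGroups

noncomputable section

/-! ### Roots of unity -/

section Zeta

variable (p : ℕ) [NeZero p]

theorem zetaU_natCast (b : ℕ) : (H205.zetaU p (b : ℤ) : ℂ) = (H205.zetaU p 1 : ℂ) ^ b := by
  rw [H205.coe_zetaU, H205.coe_zetaU, ← Complex.exp_nat_mul]
  congr 1
  push_cast
  ring

theorem zetaU_one_pow_self : (H205.zetaU p 1 : ℂ) ^ p = 1 := by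
  have h := (H205.zetaU_one_zpow_eq_one_iff p (p : ℤ)).mpr dvd_rfl
  rwa [zpow_natCast] at h

theorem zetaU_natCast_pow_self (b : ℕ) : (H205.zetaU p (b : ℤ) : ℂ) ^ p = 1 := by
  rw [zetaU_natCast, ← pow_mul, mul_comm, pow_mul, zetaU_one_pow_self, one_pow]

theorem zetaU_natCast_zpow (b : ℕ) (n : ℤ) :
    (H205.zetaU p (b : ℤ) : ℂ) ^ n = ((H205.zetaU p 1 : ℂ) ^ n) ^ b := by
  rw [zetaU_natCast, ← zpow_natCast, ← zpow_mul, ← zpow_natCast, ← zpow_mul, mul_comm]

theorem isIntegral_zetaU_zpow (b : ℕ) (n : ℤ) :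
    IsIntegral ℤ ((H205.zetaU p (b : ℤ) : ℂ) ^ n) := by
  have hp : 0 < p := Nat.pos_of_ne_zero (NeZero.ne p)
  refine IsIntegral.of_pow hp ?_
  have : ((H205.zetaU p (b : ℤ) : ℂ) ^ n) ^ p = 1 := by
    rw [← zpow_natCast, ← zpow_mul, mul_comm, zpow_mul, zpow_natCast, zetaU_natCast_pow_self,
      one_zpow]
  rw [this]
  exact isIntegral_one

/-- `∑_{b mod p} w^b` is `p` or `0` if `w^p = 1`. -/
theorem sum_zmod_pow_mem (w : ℂ) (hw : w ^ p = 1) :
    (∑ b : ZMod p, w ^ b.val) ∈ ratSubring := by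
  have h1 : (∑ b : ZMod p, w ^ b.val) = ∑ k ∈ Finset.range p, w ^ k := by
    refine Finset.sum_nbij' (fun b => b.val) (fun k => (k : ZMod p)) ?_ ?_ ?_ ?_ ?_
    · intro b _
      exact Finset.mem_range.mpr (ZMod.val_lt b)
    · intro k _
      exact Finset.mem_univ _
    · intro b _
      exact ZMod.natCast_zmod_val b
    · intro k hk
      exact ZMod.val_natCast_of_lt (Finset.mem_range.mp hk)
    · intro b _
      rfl
  rw [h1]
  by_cases h : w = 1
  · rw [h]
    simp only [one_pow, Finset.sum_const, Finset.card_range, nsmul_eq_mul, mul_one]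
    exact natCast_mem _ p
  · rw [geom_sum_eq h, hw, sub_self, zero_div]
    exact zero_mem _

end Zeta

/-! ### The family -/

section Family

variable (p : ℕ) [NeZero p]

/-- The functions `j(pτ)`, `j((τ + b)/p)`. -/
def famF : Option (ZMod p) → ℍ → ℂ
  | none => fun τ => H685.jFun (mulPt p τ)
  | some b => fun τ => H685.jFun (divPt p (b.val : ℤ) τ)

/-- The expansions in `t = exp(2πiτ/p)`. -/
def famΦ : Option (ZMod p) → LaurentSeries ℂ
  | none => qExpand ℂ p (qExpand ℂ p (jqModC ℂ))
  | some b => H205.twist (H205.zetaU p (b.val : ℤ)) (jqModC ℂ)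

theorem famF_exp (i : Option (ZMod p)) : H205.ConvTo p (famΦ p i) (famF p i) := by
  cases i with
  | none =>
    have h1 := (convTo_jFun.qExpand p (mulPt p) (fun τ => coe_mulPt p τ)).changeLevel p
    rw [one_mul] at h1
    exact h1
  | some b =>
    have h1 := convTo_jFun.subst 1 p (b.val : ℤ) (divPt p (b.val : ℤ)) (fun τ => by
      rw [coe_divPt]
      push_cast
      ring)
    rw [one_mul, qExpand_one_apply] at h1
    exact h1

theorem jFun_smul' (γ : SL(2, ℤ)) (τ : ℍ) : H685.jFun (γ • τ) = H685.jFun τ :=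
  S24.JFun.jFun_smul γ τ

/-! ### The action of `T` -/

/-- The permutation induced by `T`: `b ↦ b + 1`, `∞ ↦ ∞`. -/
def permT : Option (ZMod p) ≃ Option (ZMod p) :=
  Equiv.optionCongr (Equiv.addRight (1 : ZMod p))

theorem jFun_divPt_congr {b b' : ℤ} (h : b ≡ b' [ZMOD p]) (τ : ℍ) :
    H685.jFun (divPt p b τ) = H685.jFun (divPt p b' τ) := by
  obtain ⟨γ, hγ⟩ := divPt_congr p h τ
  rw [← hγ, jFun_smul']

theorem famF_T (i : Option (ZMod p)) (τ : ℍ) :
    famF p i (ModularGroup.T • τ) = famF p (permT p i) τ := by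
  cases i with
  | none =>
    show H685.jFun (mulPt p (ModularGroup.T • τ)) = H685.jFun (mulPt p τ)
    rw [mulPt_T, jFun_smul']
  | some b =>
    show H685.jFun (divPt p (b.val : ℤ) (ModularGroup.T • τ))
      = H685.jFun (divPt p ((b + 1).val : ℤ) τ)
    rw [divPt_T]
    apply jFun_divPt_congr
    rw [← ZMod.intCast_eq_intCast_iff]
    push_cast
    rw [ZMod.natCast_zmod_val, ZMod.natCast_zmod_val]

/-! ### The action of `S` -/

section SAction

variable [Fact p.Prime]

/-- The involution induced by `S`: `∞ ↔ 0`, `b ↦ -1/b`. -/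
def sFun : Option (ZMod p) → Option (ZMod p)
  | none => some 0
  | some b => if b = 0 then none else some (-b⁻¹)

theorem sFun_involutive : Function.Involutive (sFun p) := by
  intro i
  cases i with
  | none => simp [sFun]
  | some b =>
    by_cases hb : b = 0
    · simp [sFun, hb]
    · have h1 : -b⁻¹ ≠ 0 := neg_ne_zero.mpr (inv_ne_zero hb)
      simp [sFun, hb, inv_neg]

/-- The permutation induced by `S`. -/
def permS : Option (ZMod p) ≃ Option (ZMod p) := (sFun_involutive p).toPerm

theorem famF_S (i : Option (ZMod p)) (τ : ℍ) :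
    famF p i (ModularGroup.S • τ) = famF p (permS p i) τ := by
  cases i with
  | none =>
    show H685.jFun (mulPt p (ModularGroup.S • τ))
      = H685.jFun (divPt p (((0 : ZMod p).val : ℕ) : ℤ) τ)
    rw [mulPt_S, jFun_smul', ZMod.val_zero, Nat.cast_zero]
  | some b =>
    by_cases hb : b = 0
    · have h1 : permS p (some b) = none := by
        show sFun p (some b) = none
        simp [sFun, hb]
      rw [h1, hb]
      show H685.jFun (divPt p (((0 : ZMod p).val : ℕ) : ℤ) (ModularGroup.S • τ))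
        = H685.jFun (mulPt p τ)
      rw [ZMod.val_zero, Nat.cast_zero, divPt_zero_S, jFun_smul']
    · have h1 : permS p (some b) = some (-b⁻¹) := by
        show sFun p (some b) = some (-b⁻¹)
        simp [sFun, hb]
      rw [h1]
      show H685.jFun (divPt p (b.val : ℤ) (ModularGroup.S • τ))
        = H685.jFun (divPt p ((-b⁻¹).val : ℤ) τ)
      have h2 : (p : ℤ) ∣ (b.val : ℤ) * ((-b⁻¹).val : ℤ) + 1 := by
        rw [← ZMod.intCast_zmod_eq_zero_iff_dvd]
        push_cast
        rw [ZMod.natCast_zmod_val, ZMod.natCast_zmod_val]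
        field_simp
        ring
      obtain ⟨m, hm⟩ := h2
      rw [divPt_S p (b.val : ℤ) ((-b⁻¹).val : ℤ) m hm, jFun_smul']

end SAction

/-! ### Integrality of the expansions -/

theorem jqModC_mem_int : jqModC ℂ ∈ coeffsIn intSubring := by
  rw [mem_coeffsIn]
  intro n
  rw [jqModC_eq_map_intCast, HahnSeries.map_coeff]
  exact intCast_mem_intSubring _

theorem qExpand_mem_coeffsIn (C₀ : Subring ℂ) (N : ℕ) [NeZero N] {φ : LaurentSeries ℂ}
    (h : φ ∈ coeffsIn C₀) : qExpand ℂ N φ ∈ coeffsIn C₀ := by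
  rw [mem_coeffsIn]
  intro n
  by_cases hn : (N : ℤ) ∣ n
  · obtain ⟨m, rfl⟩ := hn
    rw [qExpand_coeff_mul]
    exact h m
  · rw [qExpand_coeff_of_not_dvd _ _ hn]
    exact zero_mem _

theorem coeffsIn_mono {C₀ C₁ : Subring ℂ} (h : C₀ ≤ C₁) : coeffsIn C₀ ≤ coeffsIn C₁ :=
  fun _ hφ n => h (hφ n)

theorem famΦ_none_mem_int : famΦ p none ∈ coeffsIn intSubring :=
  qExpand_mem_coeffsIn _ p (qExpand_mem_coeffsIn _ p jqModC_mem_int)

theorem famΦ_int (i : Option (ZMod p)) : famΦ p i ∈ coeffsIn algIntSubring := by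
  cases i with
  | none => exact coeffsIn_mono intSubring_le_algIntSubring (famΦ_none_mem_int p)
  | some b =>
    rw [mem_coeffsIn]
    intro n
    show (H205.twist (H205.zetaU p (b.val : ℤ)) (jqModC ℂ)).coeff n ∈ algIntSubring
    rw [H205.twist_coeff']
    exact Subring.mul_mem _ (intSubring_le_algIntSubring (jqModC_mem_int n))
      (isIntegral_zetaU_zpow p b.val n)

theorem famΦ_psum (m : ℕ) : (∑ i, famΦ p i ^ m) ∈ coeffsIn ratSubring := by
  rw [Fintype.sum_option]
  refine Subring.add_mem _ ?_ ?_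
  · exact coeffsIn_mono intSubring_le_ratSubring
      (Subring.pow_mem _ (famΦ_none_mem_int p) m)
  · rw [mem_coeffsIn]
    intro n
    show (∑ b : ZMod p, (H205.twist (H205.zetaU p (b.val : ℤ)) (jqModC ℂ)) ^ m).coeff n
      ∈ ratSubring
    simp_rw [← map_pow]
    rw [HahnSeries.coeff_sum]
    simp_rw [H205.twist_coeff', zetaU_natCast_zpow]
    rw [← Finset.mul_sum]
    refine Subring.mul_mem _ ?_ ?_
    · exact intSubring_le_ratSubring ((Subring.pow_mem _ jqModC_mem_int m) n)
    · apply sum_zmod_pow_mem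
      rw [← zpow_natCast, ← zpow_mul, mul_comm, zpow_mul, zpow_natCast, zetaU_one_pow_self,
        one_zpow]

end Family

/-! ### Packaging -/

section Packaging

theorem coeffMap_intCast_injective :
    Function.Injective (coeffMap (Int.castRingHom ℂ)) := by
  intro x y h
  ext k
  have h1 := congrArg (fun z => z.coeff k) h
  simp only [coeffMap_coeff] at h1
  exact Int.cast_injective h1

/-- Comparison of the evaluation maps. -/
theorem comp_evalAt (θ : LaurentSeries ℤ →+* LaurentSeries ℂ) (y : LaurentSeries ℤ) :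
    θ.comp (evalAt y) = evY (θ y) := by
  apply Polynomial.ringHom_ext
  · intro a
    simp [evalAt, evY]
  · simp [evalAt, evY]

theorem eval₂_eq_zero_of_root {ι : Type*} [Fintype ι] (Q : Polynomial (Polynomial ℤ))
    (θ : LaurentSeries ℤ →+* LaurentSeries ℂ) (hθ : Function.Injective θ)
    (y x : LaurentSeries ℤ) (Φ : ι → LaurentSeries ℂ)
    (hQ : Q.map (evY (θ y)) = ∏ i, (X - C (Φ i))) (i₀ : ι) (h : Φ i₀ = θ x) :
    Q.eval₂ (evalAt y) x = 0 := by
  apply hθ
  rw [map_zero, Polynomial.hom_eval₂, comp_evalAt, ← Polynomial.eval_map, hQ,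
    Polynomial.eval_prod]
  refine Finset.prod_eq_zero (Finset.mem_univ i₀) ?_
  rw [h]
  simp

/-- **[A-Φ]** The modular polynomial of prime level `p`. -/
theorem nonempty_modPolyData (p : ℕ) [NeZero p] (hp : p.Prime) : Nonempty (ModPolyData p) := by
  have : Fact p.Prime := ⟨hp⟩
  obtain ⟨Q, hmon, hdeg, hQ⟩ := exists_symmPoly p (famF p) (famΦ p) (permS p) (permT p)
    (famF_S p) (famF_T p) (famF_exp p) (famΦ_int p) (fun m _ => famΦ_psum p m)
  refine ⟨⟨Q, hmon, ?_, ?_, ?_⟩⟩
  · rw [hdeg, Fintype.card_option, ZMod.card]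
  · refine eval₂_eq_zero_of_root Q ((qExpand ℂ p).comp (coeffMap (Int.castRingHom ℂ)))
      ((qExpand_injective (R := ℂ) (N := p)).comp coeffMap_intCast_injective)
      (jqModC ℤ) (qExpand ℤ p (jqModC ℤ)) (famΦ p) ?_ none ?_
    · rw [RingHom.comp_apply, coeffMap_jqModC]
      exact hQ
    · rw [RingHom.comp_apply, coeffMap_qExpand, coeffMap_jqModC]
      rfl
  · refine eval₂_eq_zero_of_root Q (coeffMap (Int.castRingHom ℂ))
      coeffMap_intCast_injective
      (qExpand ℤ p (jqModC ℤ)) (jqModC ℤ) (famΦ p) ?_ (some 0) ?_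
    · rw [coeffMap_qExpand, coeffMap_jqModC]
      exact hQ
    · rw [coeffMap_jqModC]
      show H205.twist (H205.zetaU p (((0 : ZMod p).val : ℕ) : ℤ)) (jqModC ℂ) = jqModC ℂ
      have hz : H205.zetaU p (((0 : ZMod p).val : ℕ) : ℤ) = 1 := by
        ext
        simp
      rw [hz, H205.twist_one]

end Packaging

end

end Fermat.Agent.S28.H529
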